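import Mathlib

/-!
# S16 / RED: the ring `Vl ℓ ⊂ ℂ` of `ℓ`-integral algebraic numbers and its reduction to a field

`Vl ℓ := {z ∈ ℂ | ∃ m : ℕ coprime to ℓ, m * z integral over ℤ}` is a subring of `ℂ` containing all
algebraic integers (in particular `ℤ` and all roots of unity) and `1 / m` for `m` coprime to `ℓ`.
For a prime `ℓ`, the number `ℓ` is not a unit of `Vl ℓ`; we fix a maximal ideal `maxIdeal ℓ ∋ ℓ`,
the residue field `Kl ℓ` and the reduction map `red ℓ : Vl ℓ →+* Kl ℓ`; for `m : ℤ`,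
`red ℓ m = 0 ↔ ℓ ∣ m`.  (Owner: helper8.)
-/

set_option autoImplicit false

namespace Fermat.Agent.S16

/-- The subring of `ℂ` of numbers `z` such that `m * z` is an algebraic integer for some natural
number `m` coprime to `ℓ`. -/
def Vl (ℓ : ℕ) : Subring ℂ where
  carrier := {z | ∃ m : ℕ, m.Coprime ℓ ∧ IsIntegral ℤ ((m : ℂ) * z)}
  mul_mem' := by
    rintro z w ⟨m, hm, hz⟩ ⟨n, hn, hw⟩
    refine ⟨m * n, Nat.Coprime.mul_left hm hn, ?_⟩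
    have e : ((m * n : ℕ) : ℂ) * (z * w) = ((m : ℂ) * z) * ((n : ℂ) * w) := by
      push_cast; ring
    rw [e]
    exact hz.mul hw
  one_mem' := ⟨1, Nat.coprime_one_left ℓ, by
    have e : ((1 : ℕ) : ℂ) * 1 = 1 := by norm_num
    rw [e]
    exact isIntegral_one⟩
  add_mem' := by
    rintro z w ⟨m, hm, hz⟩ ⟨n, hn, hw⟩
    refine ⟨m * n, Nat.Coprime.mul_left hm hn, ?_⟩
    have e : ((m * n : ℕ) : ℂ) * (z + w) =
        ((n : ℤ) : ℂ) * ((m : ℂ) * z) + ((m : ℤ) : ℂ) * ((n : ℂ) * w) := by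
      push_cast; ring
    rw [e]
    exact (isIntegral_algebraMap.mul hz).add (isIntegral_algebraMap.mul hw)
  zero_mem' := ⟨1, Nat.coprime_one_left ℓ, by
    rw [mul_zero]
    exact isIntegral_zero⟩
  neg_mem' := by
    rintro z ⟨m, hm, hz⟩
    refine ⟨m, hm, ?_⟩
    rw [mul_neg]
    exact hz.neg

theorem mem_Vl_iff {ℓ : ℕ} {z : ℂ} :
    z ∈ Vl ℓ ↔ ∃ m : ℕ, m.Coprime ℓ ∧ IsIntegral ℤ ((m : ℂ) * z) := Iff.rfl

/-- Algebraic integers lie in `Vl ℓ`. -/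
theorem isIntegral_mem_Vl (ℓ : ℕ) {z : ℂ} (hz : IsIntegral ℤ z) : z ∈ Vl ℓ := by
  refine ⟨1, Nat.coprime_one_left ℓ, ?_⟩
  rw [Nat.cast_one, one_mul]
  exact hz

/-- Roots of unity lie in `Vl ℓ`. -/
theorem rootOfUnity_mem_Vl (ℓ : ℕ) {ζ : ℂ} {n : ℕ} (hn : 0 < n) (hζ : ζ ^ n = 1) : ζ ∈ Vl ℓ := by
  apply isIntegral_mem_Vl
  apply IsIntegral.of_pow hn
  rw [hζ]
  exact isIntegral_one

/-- `1 / m ∈ Vl ℓ` for `m` coprime to `ℓ`. -/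
theorem inv_natCast_mem_Vl {ℓ m : ℕ} (hm : m.Coprime ℓ) : ((m : ℂ))⁻¹ ∈ Vl ℓ := by
  rcases Nat.eq_zero_or_pos m with h0 | hpos
  · rw [h0, Nat.cast_zero, inv_zero]
    exact (Vl ℓ).zero_mem
  · refine ⟨m, hm, ?_⟩
    have hne : (m : ℂ) ≠ 0 := Nat.cast_ne_zero.mpr hpos.ne'
    rw [mul_inv_cancel₀ hne]
    exact isIntegral_one

/-- Rational numbers with denominator coprime to `ℓ` lie in `Vl ℓ`. -/
theorem div_natCast_mem_Vl {ℓ m : ℕ} (hm : m.Coprime ℓ) {z : ℂ} (hz : z ∈ Vl ℓ) :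
    z / (m : ℂ) ∈ Vl ℓ := by
  rw [div_eq_mul_inv]
  exact (Vl ℓ).mul_mem hz (inv_natCast_mem_Vl hm)

/-- A rational number in `Vl ℓ` (`ℓ` prime) has denominator prime to `ℓ`: if `a / b ∈ Vl ℓ`
with `ℓ ∣ b` then `ℓ ∣ a`. -/
theorem dvd_of_div_mem_Vl {ℓ : ℕ} (hℓ : ℓ.Prime) {a b : ℤ} (hb : b ≠ 0)
    (h : (a : ℂ) / (b : ℂ) ∈ Vl ℓ) (hℓb : (ℓ : ℤ) ∣ b) : (ℓ : ℤ) ∣ a := by
  obtain ⟨m, hm, hint⟩ := h
  -- the rational number `m * a / b` is integral over `ℤ`, hence an integer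
  have e : (m : ℂ) * ((a : ℂ) / (b : ℂ)) = algebraMap ℚ ℂ ((m : ℚ) * ((a : ℚ) / (b : ℚ))) := by
    simp
  rw [e, isIntegral_algebraMap_iff (algebraMap ℚ ℂ).injective,
    IsIntegrallyClosed.isIntegral_iff] at hint
  obtain ⟨k, hk⟩ := hint
  have hbQ : (b : ℚ) ≠ 0 := Int.cast_ne_zero.mpr hb
  have hk' : ((k * b : ℤ) : ℚ) = (((m : ℤ) * a : ℤ) : ℚ) := by
    have hk2 : (k : ℚ) = (m : ℚ) * ((a : ℚ) / (b : ℚ)) := hk
    push_cast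
    rw [hk2]
    field_simp
  have hkZ : k * b = (m : ℤ) * a := by exact_mod_cast hk'
  have hdvd : (ℓ : ℤ) ∣ (m : ℤ) * a := by
    rw [← hkZ]
    exact Dvd.dvd.mul_left hℓb k
  have hcop : IsCoprime (ℓ : ℤ) (m : ℤ) := by
    rw [Int.isCoprime_iff_gcd_eq_one, Int.gcd_natCast_natCast]
    exact hm.symm
  exact hcop.dvd_of_dvd_mul_left hdvd

/-- `ℓ` is not a unit of `Vl ℓ`. -/
theorem not_isUnit_natCast_Vl {ℓ : ℕ} (hℓ : ℓ.Prime) : ¬ IsUnit ((ℓ : ℕ) : Vl ℓ) := by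
  intro hu
  obtain ⟨u, hu⟩ := isUnit_iff_exists_inv.mp hu
  have hℓC : ((ℓ : ℕ) : ℂ) ≠ 0 := Nat.cast_ne_zero.mpr hℓ.ne_zero
  have h1 : ((ℓ : ℕ) : ℂ) * (u : ℂ) = 1 := by
    have := congrArg (Subtype.val : Vl ℓ → ℂ) hu
    simpa using this
  have h2 : (u : ℂ) = ((1 : ℤ) : ℂ) / (((ℓ : ℕ) : ℤ) : ℂ) := by
    rw [Int.cast_one, Int.cast_natCast, eq_div_iff hℓC, mul_comm]
    exact h1
  have hmem : ((1 : ℤ) : ℂ) / (((ℓ : ℕ) : ℤ) : ℂ) ∈ Vl ℓ := by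
    rw [← h2]
    exact u.2
  have hdvd : (ℓ : ℤ) ∣ 1 :=
    dvd_of_div_mem_Vl hℓ (Int.natCast_ne_zero.mpr hℓ.ne_zero) hmem dvd_rfl
  have h3 : ℓ ∣ 1 := Int.natCast_dvd_natCast.mp (by simpa using hdvd)
  exact hℓ.one_lt.ne' (Nat.dvd_one.mp h3)

variable (ℓ : ℕ) [Fact ℓ.Prime]

/-- A fixed maximal ideal of `Vl ℓ` containing `ℓ`. -/
noncomputable def maxIdeal : Ideal (Vl ℓ) :=
  Classical.choose (Ideal.exists_le_maximal (Ideal.span {((ℓ : ℕ) : Vl ℓ)})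
    (by
      rw [Ne, Ideal.span_singleton_eq_top]
      exact not_isUnit_natCast_Vl (Fact.out)))

instance maxIdeal_isMaximal : (maxIdeal ℓ).IsMaximal :=
  (Classical.choose_spec (Ideal.exists_le_maximal (Ideal.span {((ℓ : ℕ) : Vl ℓ)})
    (by
      rw [Ne, Ideal.span_singleton_eq_top]
      exact not_isUnit_natCast_Vl (Fact.out)))).1

theorem natCast_mem_maxIdeal : ((ℓ : ℕ) : Vl ℓ) ∈ maxIdeal ℓ :=
  (Classical.choose_spec (Ideal.exists_le_maximal (Ideal.span {((ℓ : ℕ) : Vl ℓ)})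
    (by
      rw [Ne, Ideal.span_singleton_eq_top]
      exact not_isUnit_natCast_Vl (Fact.out)))).2 (Ideal.mem_span_singleton_self _)

/-- The residue field of `Vl ℓ` at `maxIdeal ℓ`. -/
abbrev Kl : Type := Vl ℓ ⧸ maxIdeal ℓ

noncomputable instance Kl_field : Field (Kl ℓ) := Ideal.Quotient.field (maxIdeal ℓ)

/-- The reduction map `Vl ℓ → Kl ℓ`. -/
noncomputable def red : Vl ℓ →+* Kl ℓ := Ideal.Quotient.mk (maxIdeal ℓ)

theorem red_surjective : Function.Surjective (red ℓ) := Ideal.Quotient.mk_surjective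

theorem red_natCast_self : red ℓ ((ℓ : ℕ) : Vl ℓ) = 0 :=
  Ideal.Quotient.eq_zero_iff_mem.mpr (natCast_mem_maxIdeal ℓ)

/-- For an integer `m`: `red m = 0 ↔ ℓ ∣ m`. -/
theorem red_intCast_eq_zero_iff (m : ℤ) : red ℓ ((m : ℤ) : Vl ℓ) = 0 ↔ (ℓ : ℤ) ∣ m := by
  have hℓ : ℓ.Prime := Fact.out
  have hself : red ℓ (((ℓ : ℕ) : ℤ) : Vl ℓ) = 0 := by
    rw [Int.cast_natCast]
    exact red_natCast_self ℓ
  constructor
  · intro h
    by_contra hnd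
    have hprime : Prime (ℓ : ℤ) := Nat.prime_iff_prime_int.mp hℓ
    have hcop : IsCoprime (ℓ : ℤ) m := (Prime.coprime_iff_not_dvd hprime).mpr hnd
    obtain ⟨u, w, huw⟩ := hcop
    have h1 : red ℓ ((u : ℤ) : Vl ℓ) * red ℓ (((ℓ : ℕ) : ℤ) : Vl ℓ) +
        red ℓ ((w : ℤ) : Vl ℓ) * red ℓ ((m : ℤ) : Vl ℓ) = 1 := by
      rw [← map_mul, ← map_mul, ← map_add, ← Int.cast_mul, ← Int.cast_mul, ← Int.cast_add, huw,
        Int.cast_one, map_one]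
    rw [hself, h, mul_zero, mul_zero, add_zero] at h1
    exact zero_ne_one h1
  · rintro ⟨k, rfl⟩
    rw [Int.cast_mul, map_mul, hself, zero_mul]

theorem red_natCast_eq_zero_iff (m : ℕ) : red ℓ ((m : ℕ) : Vl ℓ) = 0 ↔ ℓ ∣ m := by
  rw [← Int.natCast_dvd_natCast, ← red_intCast_eq_zero_iff, Int.cast_natCast]

/-- Units of `Vl ℓ` do not reduce to zero. -/
theorem red_ne_zero_of_isUnit {v : Vl ℓ} (hv : IsUnit v) : red ℓ v ≠ 0 :=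
  (hv.map (red ℓ)).ne_zero

/-- Reduction of a fraction `a / b ∈ Vl ℓ` with `ℓ ∤ b`: it is zero iff `ℓ ∣ a`. -/
theorem red_eq_zero_iff_of_mul_eq {v : Vl ℓ} {a b : ℤ} (hb : ¬ (ℓ : ℤ) ∣ b)
    (h : (b : ℂ) * (v : ℂ) = (a : ℂ)) : red ℓ v = 0 ↔ (ℓ : ℤ) ∣ a := by
  have hV : ((b : ℤ) : Vl ℓ) * v = ((a : ℤ) : Vl ℓ) := by
    apply Subtype.ext
    simpa using h
  have hred : red ℓ ((b : ℤ) : Vl ℓ) * red ℓ v = red ℓ ((a : ℤ) : Vl ℓ) := by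
    rw [← map_mul, hV]
  have hb' : red ℓ ((b : ℤ) : Vl ℓ) ≠ 0 := fun h0 => hb ((red_intCast_eq_zero_iff ℓ b).mp h0)
  rw [← red_intCast_eq_zero_iff, ← hred, mul_eq_zero]
  constructor
  · intro h0
    exact Or.inr h0
  · rintro (h0 | h0)
    · exact absurd h0 hb'
    · exact h0

/-- The kernel of `red`, as an additive subgroup of `ℂ`. -/
noncomputable def redKer : AddSubgroup ℂ :=
  (RingHom.ker (red ℓ)).toAddSubgroup.map (Vl ℓ).subtype.toAddMonoidHom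

theorem mem_redKer_iff {z : ℂ} : z ∈ redKer ℓ ↔ ∃ v : Vl ℓ, red ℓ v = 0 ∧ (v : ℂ) = z := by
  unfold redKer
  rw [AddSubgroup.mem_map]
  constructor
  · rintro ⟨v, hv, rfl⟩
    exact ⟨v, (RingHom.mem_ker).mp hv, rfl⟩
  · rintro ⟨v, hv, rfl⟩
    exact ⟨v, (RingHom.mem_ker).mpr hv, rfl⟩

end Fermat.Agent.S16
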